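import Fermat.Agent.RED.Pull
import Fermat.Agent.S24.FF.Places
import Fermat.Agent.RED.FF.Riemann

/-!
# MAZ / Red / [R1]  abstract: a point where `f` takes a small value reduces into the zeros of `f`

Setting of `RED/Pull.lean`: `φ : F →ₐ[K] F'`, `r : Place K F' → Place k Fb`, `ρ := Pull.redDiv φ hφ r = r_* ∘ φ^* : Div F → Div Fb`.

* `redDiv_mono` : `ρ` is additive and `≥ 0` on `single v 1` (`Pull.redDiv_single_nonneg`).
* `redDiv_le_of_le_zeros` : `D = div f`, `D' = div (f - ε)` (`ε` a constant), `ρ D = ρ D'`, `Z = (div f)₊` (`Z v = max (ord_v f) 0`), `E ≤ (div (f - ε))₊`.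
  Put `Z' := D' - D + Z`.  Pointwise: `ord_v f < 0 ⟹ ord_v (f - ε) = ord_v f` (`Place.ord_add_eq_of_lt`-type lemma, cf. `RED/FF/Riemann.lean`
  `ord_sub_const..`), `Z' v = 0`; `ord_v f ≥ 0 ⟹ ord_v (f-ε) ≥ 0`, `Z' v = ord_v (f - ε)`.  So `Z' = (div (f-ε))₊ ≥ E` and `ρ Z' = ρ Z`.
* `eq_of_le_of_le` : `X ≤ n • Dinf`, `X ≤ Dinf + m • D0`, `Dinf`, `D0` with disjoint supports, so `X ≤ Dinf` pointwise;
  `deg X = deg Dinf` and all places have degree `1`, so `Dinf - X ≥ 0` of degree `0` is `0`.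
-/

set_option autoImplicit false

open AlgebraicCurve

namespace Fermat.Agent.MAZ.Red

open Fermat.Agent.RED

noncomputable section

variable {K F F' k Fb : Type*} [Field K] [Field F] [Field F'] [Algebra K F] [Algebra K F']
  [Field k] [Field Fb] [Algebra k Fb] [HasPrincipalDivisors K F']
variable (φ : F →ₐ[K] F') (hφ : φ.toRingHom.IsIntegral) (r : Place K F' → Place k Fb)

theorem redDiv_mono {D E : Divisor K F} (h : D ≤ E) :
    Pull.redDiv φ hφ r D ≤ Pull.redDiv φ hφ r E := by
  have h0 : 0 ≤ Divisor.pullbackAlong φ hφ (E - D) := by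
    intro w
    rw [Divisor.pullbackAlong_apply]
    have : 0 ≤ (E - D) (w.restrictAlong φ hφ) := by
      rw [Finsupp.sub_apply]
      exact sub_nonneg.2 (h _)
    exact mul_nonneg (Nat.cast_nonneg _) this
  have h1 : 0 ≤ Pull.redDiv φ hφ r (E - D) := Pull.pushDiv_nonneg h0
  rw [map_sub] at h1
  exact sub_nonneg.1 h1

theorem redDiv_le_of_le_zeros {f : F} {ε : K} (hf : f ≠ 0) (hfε : f - algebraMap K F ε ≠ 0)
    {D D' Z E : Divisor K F} (hD : ∀ v, D v = v.ord f)
    (hD' : ∀ v, D' v = v.ord (f - algebraMap K F ε))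
    (hZ : ∀ v, Z v = max (v.ord f) 0)
    (hred : Pull.redDiv φ hφ r D = Pull.redDiv φ hφ r D')
    (hE : ∀ v, E v ≤ max (v.ord (f - algebraMap K F ε)) 0) :
    Pull.redDiv φ hφ r E ≤ Pull.redDiv φ hφ r Z := by
  have hEZ : E ≤ D' - D + Z := by
    intro v
    rw [Finsupp.add_apply, Finsupp.sub_apply, hD, hD', hZ]
    refine (hE v).trans ?_
    rcases lt_or_ge (v.ord f) 0 with hlt | hge
    · rw [Fermat.Agent.RED.ord_sub_algebraMap_of_neg v hlt ε, max_eq_right hlt.le]
      simp
    · have hmem : f ∈ v.toValuationSubring := (Fermat.Agent.S24.Place.mem_iff_ord_nonneg v hf).2 hge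
      have hmem' : f - algebraMap K F ε ∈ v.toValuationSubring :=
        v.toValuationSubring.sub_mem hmem (v.algebraMap_mem' ε)
      have h2 := Fermat.Agent.S24.Place.ord_nonneg_of_mem v hmem'
      rw [max_eq_left hge, max_eq_left h2]
      omega
  have h1 := redDiv_mono φ hφ r hEZ
  rw [map_add, map_sub, hred, sub_self, zero_add] at h1
  exact h1

theorem eq_of_le_of_le (hdeg : ∀ Q : Place k Fb, Q.deg = 1) {X Dinf D0 : Divisor k Fb} (n m : ℕ)
    (h1 : X ≤ n • Dinf) (h2 : X ≤ Dinf + m • D0) (hdisj : ∀ Q, Dinf Q = 0 ∨ D0 Q = 0)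
    (hX : Divisor.degree X = Divisor.degree Dinf) : X = Dinf := by
  have hle : ∀ Q, X Q ≤ Dinf Q := by
    intro Q
    rcases hdisj Q with h | h
    · have := h1 Q
      rw [Finsupp.smul_apply, h, smul_zero] at this
      rw [h]
      exact this
    · have := h2 Q
      rw [Finsupp.add_apply, Finsupp.smul_apply, h, smul_zero, add_zero] at this
      exact this
  have hdegsum : ∀ Y : Divisor k Fb, Divisor.degree Y = Y.sum fun _ n => n := by
    intro Y
    induction Y using Finsupp.induction_linear with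
    | zero => simp
    | add D E hD hE =>
      rw [map_add, hD, hE, Finsupp.sum_add_index' (fun _ => rfl) (fun _ _ _ => rfl)]
    | single P n => rw [Divisor.degree_single, hdeg, Finsupp.sum_single_index rfl]; simp
  have h0 : Divisor.degree (Dinf - X) = 0 := by rw [map_sub, hX, sub_self]
  rw [hdegsum, Finsupp.sum] at h0
  have h3 : ∀ Q ∈ (Dinf - X).support, (Dinf - X) Q = 0 :=
    (Finset.sum_eq_zero_iff_of_nonneg fun Q _ => by
      rw [Finsupp.sub_apply]; exact sub_nonneg.2 (hle Q)).1 h0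
  ext Q
  by_cases hQ : Q ∈ (Dinf - X).support
  · have := h3 Q hQ
    rw [Finsupp.sub_apply] at this
    omega
  · have := Finsupp.notMem_support_iff.1 hQ
    rw [Finsupp.sub_apply] at this
    omega

end

end Fermat.Agent.MAZ.Red
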