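import Fermat.Agent.RED.S37.Exist
import Fermat.Agent.RED.RB.CharZero
import Fermat.Agent.RED.Cusp.Final
import Fermat.Agent.MAZ.Dict.Unit
import Fermat.Agent.RED.NonSpecial

/-!
# MAZ / Red / [R2]  the reduction of places is injective on the cusps

`M` any level, `ℓ ∤ M`, `A ∣ ℓ`, `h : ReductionInputsModL A M`, `r := placeReductionModL h`, `k` the residue field of `A`,
`jb k M` = the function `j` of `Fb k M = modularFunctionFieldFullC k M`.

STEP 1 (`mapDomain_poles`).  (P1) = `(isPlaceReductionModL_placeReductionModL h).2` for `y := jqModC A` (`coeffMap A.subtype y = jF M`,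
`coeffMap (residue) y = jb k M ≠ 0`, `coeffMap_jqModC`): `r_* (div j) = div j̄`.  Write `div j = Z - P`, `div j̄ = Z̄ - P̄` (zeros, poles; all `≥ 0`,
`Z̄`, `P̄` with disjoint supports).  `E := r_* P - P̄ = r_* Z - Z̄`.  At a pole of `j̄`: `Z̄ = 0`, `E = r_* Z ≥ 0`; elsewhere `P̄ = 0`, `E = r_* P ≥ 0`.
`deg E = deg P - deg P̄ = ψ(M) - ψ(M) = 0` (`IsSepParam.sum_poles`; `RED.Desc.finrank_adjoin_jF` + `card_XN_eq`; `RED.Cusp.finrank_jb`; degrees of places are `1`).
So `E = 0`.
STEP 2.  `r` maps `{poles of j}` onto `{poles of j̄}` (supports of `P`, `P̄ = r_* P`, `P > 0` on its support), and both sets have `cuspCount M` elements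
(`RED.RB.card_poles_jF`, `RED.Cusp.card_poles_jb`): a surjection between finite sets of the same cardinality is injective.
-/

set_option autoImplicit false
set_option synthInstance.maxHeartbeats 400000

open AlgebraicCurve ModularCurve

namespace Fermat.Agent.MAZ.Red

open Fermat.Agent.S24
open Fermat.Agent.RED hiding Kb

noncomputable section

theorem injOn_cusps {ℓ : ℕ} [Fact ℓ.Prime] (M : ℕ) [NeZero M] (hℓM : ¬ ℓ ∣ M)
    (A : ValuationSubring Kb) (hA : A.LiesOverPrime ℓ) (h : ReductionInputsModL A M) :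
    Set.InjOn (placeReductionModL h) {P : Place Kb (FN M) | P.ord (jF M) < 0} := by
  classical
  have := charP_residueField A hA
  have := isAlgClosed_residueField A
  set k := IsLocalRing.ResidueField A with hk
  set r := placeReductionModL h with hr_def
  have hr := isPlaceReductionModL_placeReductionModL h
  have hx : IsSepParam Kb (jF M) := RB.isSepParam_jF M
  have hxb : IsSepParam k (Cusp.jb k M) := Cusp.isSepParam_jb M k ℓ hℓM
  have hdeg : Module.finrank (IntermediateField.adjoin k {Cusp.jb k M}) (Cusp.Fb k M)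
      = Module.finrank (IntermediateField.adjoin Kb {jF M}) (FN M) := by
    rw [Cusp.finrank_jb M k ℓ hℓM, RB.finrank_jF]
  -- (P1) for `j`
  have hcoe : ((jF M : FN M) : LaurentSeries Kb) = jqModC Kb := Desc.coe_jF M
  have hy1 : coeffMap A.subtype (jqModC A) = ((jF M : FN M) : LaurentSeries Kb) := by
    rw [coeffMap_jqModC, hcoe]
  have hy2 : coeffMap (IsLocalRing.residue A) (jqModC A) = ((Cusp.jb k M : Cusp.Fb k M) : LaurentSeries k) := by
    rw [coeffMap_jqModC]; rfl
  have hP1 : ∀ Q, (dv Kb (jF M)).mapDomain r Q = Q.ord (Cusp.jb k M) := by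
    intro Q
    have h1 := hr.2 (jqModC A) (by rw [hy1]; exact (jF M).2) (by rw [hy2]; exact (Cusp.jb k M).2)
      (by rw [hy2]; exact fun h0 => hxb.ne_zero (Subtype.ext h0)) (dv Kb (jF M))
      (fun P => by
        rw [hx.dv_apply]
        congr 1
        exact Subtype.ext hy1.symm) Q
    rw [h1]
    congr 1
    exact Subtype.ext hy2
  -- STEP 1
  have hle : polarDiv k (Cusp.jb k M) ≤ (polarDiv Kb (jF M)).mapDomain r := by
    intro Q
    rw [hxb.polarDiv_apply, ← hP1 Q]
    refine max_le ?_ (mapDomain_apply_nonneg r _ Q fun P _ => polarDiv_nonneg (jF M) P)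
    rw [← mapDomain_neg_apply]
    exact mapDomain_apply_mono r le_sup_left Q
  have hd : Divisor.degree ((polarDiv Kb (jF M)).mapDomain r - polarDiv k (Cusp.jb k M)) = 0 := by
    rw [map_sub, degree_mapDomain_of_deg_eq_one r hx.deg_eq_one hxb.deg_eq_one,
      hx.degree_polarDiv, hxb.degree_polarDiv, hdeg, sub_self]
  have hmain : (polarDiv Kb (jF M)).mapDomain r = polarDiv k (Cusp.jb k M) :=
    sub_eq_zero.mp (hxb.eq_zero_of_degree_eq_zero (sub_nonneg.mpr hle) hd)
  -- STEP 2
  have hmaps : ∀ P : Place Kb (FN M), P.ord (jF M) < 0 → (r P).ord (Cusp.jb k M) < 0 := by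
    intro P hP
    have h1 := le_mapDomain_apply r (polarDiv Kb (jF M)) (r P)
      (fun P' _ => polarDiv_nonneg (jF M) P') P rfl
    rw [hmain, hx.polarDiv_apply, hxb.polarDiv_apply] at h1
    by_contra hcon
    rw [max_eq_right (by omega : -(r P).ord (Cusp.jb k M) ≤ 0)] at h1
    have := le_max_left (-P.ord (jF M)) 0
    omega
  let f : {v : Place Kb (FN M) // v.ord (jF M) < 0} →
      {v : Place k (Cusp.Fb k M) // v.ord (Cusp.jb k M) < 0} := fun P => ⟨r P.1, hmaps P.1 P.2⟩
  have hsurj : Function.Surjective f := by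
    rintro ⟨Q, hQ⟩
    by_contra hcon
    have h1 : (polarDiv Kb (jF M)).mapDomain r Q = 0 := by
      refine mapDomain_apply_eq_zero r _ Q fun P hP => ?_
      rw [hx.polarDiv_apply]
      refine max_eq_right ?_
      by_contra hlt
      exact hcon ⟨⟨P, by omega⟩, Subtype.ext hP⟩
    rw [hmain, hxb.polarDiv_apply] at h1
    have := le_max_left (-Q.ord (Cusp.jb k M)) 0
    omega
  haveI : Finite {v : Place Kb (FN M) // v.ord (jF M) < 0} := hx.finite_poles.to_subtype
  have hbij := hsurj.bijective_of_nat_card_le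
    (by rw [RB.card_poles_jF, Cusp.card_poles_jb M k ℓ hℓM])
  intro P hP P' hP' hPP'
  have := hbij.1 (a₁ := ⟨P, hP⟩) (a₂ := ⟨P', hP'⟩) (Subtype.ext hPP')
  exact congrArg Subtype.val this

end

end Fermat.Agent.MAZ.Red
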