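import Fermat.Agent.MAZ.Red.Abs
import Fermat.Agent.MAZ.Red.Cusp
import Fermat.Agent.MAZ.Dict.Point
import Fermat.Agent.MAZ.Dict.CuspClass
import Fermat.Agent.MAZ.Geo.Basic
import Fermat.Agent.GAL.HeckeEquiv.ThetaLevel

/-!
# MAZ / Red / [R3]  a point of `X₀(N)` with `|u| > 1` (resp. `|u| < 1`) at `A` reduces to the cusp `∞` (resp. `0`)

`N` prime, `ℓ ∤ N`, `A ∣ ℓ`, `c = aux ℓ`, `M = N c`, `φ = heckeBetaBar Kb N c : f(q) ↦ f(q^c)`, `r = placeReductionModL _` at level `M`,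
`rho = r_* ∘ φ^* : Div F_N → Div F̄_M` (`RED.Pull.redDiv`), `k` = residue field of `A`, `π = IsLocalRing.residue A`.

* `redJ_mk_of_rho_eq_zero` : `redJ_apply`, `RED.Bstar` (unfold), `RED.pullPic0_mk`, `reductionModL_mk (reductionInputsModL_aux ..)`; the divisor is `rho D = 0`.
* `rho_mono` : `Red.redDiv_mono`.   `degree_rho` : `RED.Pull.degree_redDiv` with `hFI = (heckeInputsAlong' N c).snd.snd.snd.snd.1`,
  `hdeg = (isPlaceReductionModL_placeReductionModL _).1`.  `finrankAlong_pos`: the extension is finite (`RED.Desc.card_mul_finrank_beta`).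
* `rho_sameRed` : `y := qExpand A c fS`, `y' := y - C ε'` (`ε' = ⟨ε, _⟩ ∈ A`, `π ε' = 0`).  `coeffMap A.subtype y = φ f`, `coeffMap A.subtype y' = φ (f - ε)`,
  `coeffMap π y = coeffMap π y' = qExpand k c (coeffMap π fS) ≠ 0` (`qExpand` injective), which lies in `F̄_M` by
  `RED.coeffMap_mem_fullC_of_integral π hπ (card_Q_pos M) (exists_isCoreExt M ℓ hℓM).choose_spec` (pattern: `RED/GalEq/HeckeDiv.lean` l.105).
  (P1) `= (isPlaceReductionModL_placeReductionModL _).2` applied to `y`, `y'` and the divisors `φ^* D`, `φ^* D'` (`RED.Pull.pullbackAlong_isDiv`): both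
  `rho D` and `rho D'` are the divisor of the same function.
* `rho_le_of_small` : `Red.redDiv_le_of_le_zeros` + `rho_sameRed`; `D`, `D'` exist by `(RED.Desc.isSepParam_jF N).hasPrincipalDivisors`.
* `ord_jF_neg_of_ord_beta_neg` : if `0 ≤ w.ord (jF M)` then `GAL.AD.exists_point_of_place iotaK.toRingHom M w _` gives `τ, k` with
  `merVal τ (thetaK f) = exp (-(k * w.ord f))`; `φ (jF N) = jBar M c _` (`RED.Desc.beta_jBar`, `jF N = jBar N 1 _`), `ThetaMer_jBar` : holomorphic, so `merVal ≤ 1`.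
* `rho_disjoint` : `RED.Pull.redDiv_single`: the support of `rho (single v 1)` is `r (fibre of v)`.  If `Q = r W = r W'`, `W ∣ P_∞`, `W' ∣ P₀` then `W, W'` are poles of
  `φ (jF N)` (`Place.ord_restrictAlong`), so poles of `jF M`, so `W = W'` (`Red.injOn_cusps`), so `P_∞ = P₀` (restriction of `W`): contradiction.
* `zeros_*` : `ord_Pinf_jF`, `ord_P0_jF`, `ord_Pinf_uF`, `ord_P0_uF`, `ord_uF_of_finite`, `eq_cusp_of_ord_jF_neg`, `Place.ord_inv`, `Place.ord_mul`.
* `rho_eq_Pinf` : `f = u⁻¹` (`fS = uInvS A N`, `coe_inv_uF`, `coeffMap_uInvS`; reduction `uInvS k N ≠ 0` by `uS_mul_uInvS`), `ε = u₀⁻¹` (`Dict.ord_inv_sub`): `rho x ≤ (N-1) rho P_∞`;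
  `f = j⁻¹` (`jInvS A`), `ε = j₀⁻¹`: `rho x ≤ rho P_∞ + N rho P₀`.  `Red.eq_of_le_of_le` (`hdeg` : `(RED.Cusp.isSepParam_jb M k ℓ hℓM).deg_eq_one`).
* `rho_eq_P0` : `f = u` (`uS A N`), `ε = u₀`: `rho x ≤ (N-1) rho P₀`;  `f = (j u)⁻¹ = j⁻¹ u⁻¹` (`jInvS A * uInvS A N`), `ε = (j₀ u₀)⁻¹`: `rho x ≤ rho P₀ + N rho P_∞`.
* `eq_of_rho_eq_Pinf` : if `x ≠ x'` then `E = single x 1 + single x' 1 ≤ (div (j⁻¹ - j₀⁻¹))₊`, so `2 rho P_∞ ≤ rho P_∞ + N rho P₀`, so `rho P_∞ ≤ N rho P₀`, so `rho P_∞ ≤ 0`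
  by `rho_disjoint`, against `degree_rho`, `finrankAlong_pos`.
-/

set_option autoImplicit false
set_option synthInstance.maxHeartbeats 400000
set_option linter.unusedSectionVars false

open AlgebraicCurve ModularCurve

namespace Fermat.Agent.MAZ.Red

open Fermat.Agent.S24 Fermat.Agent.MAZ.Dict
open Fermat.Agent.RED hiding Kb

noncomputable section

variable {ℓ : ℕ} [Fact ℓ.Prime] (N : ℕ) [NeZero N] (hℓN : ¬ ℓ ∣ N) (A : ValuationSubring Kb)
  (hA : A.LiesOverPrime ℓ)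

/-- `r_* ∘ B^*` on divisors. -/
def rho : Divisor Kb (FN N) →+ Divisor (IsLocalRing.ResidueField A)
    (modularFunctionFieldFullC (IsLocalRing.ResidueField A) (N * aux ℓ)) :=
  haveI := (heckeInputsAlong' N (aux ℓ)).snd.snd.fst
  Pull.redDiv (heckeBetaBar Kb N (aux ℓ)) (heckeInputsAlong' N (aux ℓ)).snd.fst
    (placeReductionModL (reductionInputsModL_aux N hℓN A hA))

theorem redJ_mk_of_rho_eq_zero (D : Divisor.degZero (K := Kb) (F := FN N))
    (h : rho N hℓN A hA (D : Divisor Kb (FN N)) = 0) : redJ N ℓ A (Pic0.mk D) = 0 := by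
  haveI := (heckeInputsAlong' N (aux ℓ)).snd.snd.fst
  rw [redJ_apply]
  have h1 : Bstar N (aux ℓ) (heckeInputsAlong' N (aux ℓ)) (Pic0.mk D) =
      Pic0.mk (pullDegZero (heckeBetaBar Kb N (aux ℓ)) (heckeInputsAlong' N (aux ℓ)).snd.fst
        (heckeInputsAlong' N (aux ℓ)).snd.snd.snd.snd.1 D) := rfl
  rw [h1, reductionModL_mk (reductionInputsModL_aux N hℓN A hA)]
  have h2 : reductionDegZeroAlong (placeReductionModL (reductionInputsModL_aux N hℓN A hA))
      (isPlaceReductionModL_placeReductionModL (reductionInputsModL_aux N hℓN A hA)).1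
      (pullDegZero (heckeBetaBar Kb N (aux ℓ)) (heckeInputsAlong' N (aux ℓ)).snd.fst
        (heckeInputsAlong' N (aux ℓ)).snd.snd.snd.snd.1 D) = 0 := Subtype.ext h
  rw [h2]
  rfl

theorem rho_mono {D E : Divisor Kb (FN N)} (h : D ≤ E) : rho N hℓN A hA D ≤ rho N hℓN A hA E := by
  haveI := (heckeInputsAlong' N (aux ℓ)).snd.snd.fst
  exact redDiv_mono _ _ _ h

theorem degree_rho (D : Divisor Kb (FN N)) :
    Divisor.degree (rho N hℓN A hA D) =
      (finrankAlong Kb (heckeBetaBar Kb N (aux ℓ)) : ℤ) * Divisor.degree D := by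
  haveI := (heckeInputsAlong' N (aux ℓ)).snd.snd.fst
  exact Pull.degree_redDiv _ _ (heckeInputsAlong' N (aux ℓ)).snd.snd.snd.snd.1
    (isPlaceReductionModL_placeReductionModL (reductionInputsModL_aux N hℓN A hA)).1 D

theorem finrankAlong_pos (c : ℕ) [NeZero c] : 0 < finrankAlong Kb (heckeBetaBar Kb N c) := by
  letI := algebraAlong (heckeBetaBar Kb N c)
  haveI : Module.Finite (FN N) (FN (N * c)) :=
    Fermat.Agent.GAL.HeckeComm.finiteAlong_any (heckeBetaBar Kb N c)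
  exact Module.finrank_pos

theorem rho_sameRed {f : FN N} (fS : LaurentSeries A)
    (hfS : coeffMap A.subtype fS = (f : LaurentSeries Kb))
    (hred : coeffMap (IsLocalRing.residue A) fS ≠ 0) {ε : Kb} (hε : A.valuation ε < 1)
    {D D' : Divisor Kb (FN N)} (hD : ∀ v, D v = v.ord f)
    (hD' : ∀ v, D' v = v.ord (f - algebraMap Kb (FN N) ε)) :
    rho N hℓN A hA D = rho N hℓN A hA D' := by
  haveI := (heckeInputsAlong' N (aux ℓ)).snd.snd.fst
  haveI := charP_residueField A hA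
  have hℓM : ¬ ℓ ∣ N * aux ℓ := not_dvd_mul_aux Fact.out hℓN
  have hr := isPlaceReductionModL_placeReductionModL (reductionInputsModL_aux N hℓN A hA)
  have hmem := coeffMap_mem_fullC_of_integral (IsLocalRing.residue A)
    IsLocalRing.residue_surjective (card_Q_pos (N * aux ℓ))
    (exists_isCoreExt (N * aux ℓ) ℓ hℓM).choose_spec (L := Kb) (A := A)
  have hεA : ε ∈ A := (A.valuation_le_one_iff ε).mp hε.le
  have hπε : IsLocalRing.residue A ⟨ε, hεA⟩ = 0 := by
    rw [IsLocalRing.residue_eq_zero_iff]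
    exact (A.valuation_lt_one_iff ⟨ε, hεA⟩).mpr hε
  set φ := heckeBetaBar Kb N (aux ℓ) with hφdef
  set y : LaurentSeries A := qExpand A (aux ℓ) fS with hy
  set y' : LaurentSeries A := y - HahnSeries.single 0 (⟨ε, hεA⟩ : A) with hy'
  have e1 : coeffMap A.subtype y = ((φ f : FN (N * aux ℓ)) : LaurentSeries Kb) := by
    rw [hy, coeffMap_qExpand, hfS]; rfl
  have e2 : coeffMap A.subtype y' =
      ((φ (f - algebraMap Kb (FN N) ε) : FN (N * aux ℓ)) : LaurentSeries Kb) := by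
    rw [hy', map_sub, e1, coeffMap_single, map_sub, AlgHom.commutes]
    show _ = ((φ f : FN (N * aux ℓ)) : LaurentSeries Kb) - algebraMap Kb (LaurentSeries Kb) ε
    rw [algebraMap_laurentSeries_eq_single]
    rfl
  have e3 : coeffMap (IsLocalRing.residue A) y' = coeffMap (IsLocalRing.residue A) y := by
    rw [hy', map_sub, coeffMap_single, hπε, HahnSeries.single_eq_zero, sub_zero]
  have hne : coeffMap (IsLocalRing.residue A) y ≠ 0 := by
    rw [hy, coeffMap_qExpand]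
    intro h0
    exact hred (qExpand_injective (R := IsLocalRing.ResidueField A) (N := aux ℓ)
      (by rw [h0, map_zero]))
  have m1 : coeffMap A.subtype y ∈ modularFunctionFieldBar (N * aux ℓ) := by
    rw [e1]; exact (φ f).2
  have m2 : coeffMap A.subtype y' ∈ modularFunctionFieldBar (N * aux ℓ) := by
    rw [e2]; exact (φ _).2
  ext Q
  have h1 := hr.2 y m1 (hmem y m1) hne
    (Divisor.pullbackAlong φ (heckeInputsAlong' N (aux ℓ)).snd.fst D)
    (fun w => (Pull.pullbackAlong_isDiv φ _ hD w).trans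
      (congrArg w.ord (Subtype.ext e1.symm))) Q
  have h2 := hr.2 y' m2 (hmem y' m2) (by rw [e3]; exact hne)
    (Divisor.pullbackAlong φ (heckeInputsAlong' N (aux ℓ)).snd.fst D')
    (fun w => (Pull.pullbackAlong_isDiv φ _ hD' w).trans
      (congrArg w.ord (Subtype.ext e2.symm))) Q
  refine h1.trans (Eq.trans ?_ h2.symm)
  exact congrArg Q.ord (Subtype.ext e3.symm)

theorem rho_le_of_small {f : FN N} (fS : LaurentSeries A)
    (hfS : coeffMap A.subtype fS = (f : LaurentSeries Kb))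
    (hred : coeffMap (IsLocalRing.residue A) fS ≠ 0) {ε : Kb} (hε : A.valuation ε < 1)
    (hfε : f - algebraMap Kb (FN N) ε ≠ 0) {Z E : Divisor Kb (FN N)}
    (hZ : ∀ v, Z v = max (v.ord f) 0)
    (hE : ∀ v, E v ≤ max (v.ord (f - algebraMap Kb (FN N) ε)) 0) :
    rho N hℓN A hA E ≤ rho N hℓN A hA Z := by
  haveI := (heckeInputsAlong' N (aux ℓ)).snd.snd.fst
  haveI := (Desc.isSepParam_jF N).hasPrincipalDivisors
  have hf : f ≠ 0 := by
    rintro rfl
    apply hred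
    have : fS = 0 := Gauss.iota_injective A (by rw [map_zero]; exact hfS)
    rw [this, map_zero]
  obtain ⟨D, hD, -⟩ := HasPrincipalDivisors.exists_divisor (K := Kb) f hf
  obtain ⟨D', hD', -⟩ := HasPrincipalDivisors.exists_divisor (K := Kb) _ hfε
  exact redDiv_le_of_le_zeros _ _ _ hf hfε hD hD' hZ (rho_sameRed N hℓN A hA fS hfS hred hε hD hD') hE

theorem ord_jF_neg_of_ord_beta_neg (c : ℕ) [NeZero c] {w : Place Kb (FN (N * c))}
    (h : w.ord (heckeBetaBar Kb N c (jF N)) < 0) : w.ord (jF (N * c)) < 0 := by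
  by_contra hcon
  have hv : 0 ≤ w.ord (jF (N * c)) := not_lt.1 hcon
  have hj : GAL.AD.jK1 Kb (N * c) = jF (N * c) := Subtype.ext (by
    rw [GAL.AD.jK1, GAL.AD.coe_jK, Desc.coe_jF, jqNModC_one])
  have hmem : GAL.AD.jK1 Kb (N * c) ∈ w.toValuationSubring := by
    rw [hj, Place.mem_iff_ord_nonneg w (Desc.jF_ne_zero (N * c))]
    exact hv
  obtain ⟨τ, k, hk, hval, -⟩ := GAL.AD.exists_point_of_place iotaK.toRingHom (N * c) w hmem
  have hne : heckeBetaBar Kb N c (jF N) ≠ 0 :=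
    (map_ne_zero (heckeBetaBar Kb N c)).2 (Desc.jF_ne_zero N)
  have h1 := hval _ hne
  have hb : heckeBetaBar Kb N c (jF N) = jBar (N * c) (c * 1)
      (by rw [mul_comm N c]; exact mul_dvd_mul_left c (one_dvd N)) :=
    Desc.beta_jBar N c 1 (one_dvd N)
  rw [GAL.thetaK_iotaK, hb, ThetaMer_jBar, merVal_algebraMap] at h1
  have h2 := holVal_le_one τ (jdHol (c * 1))
  rw [h1, ← WithZero.exp_zero, WithZero.exp_le_exp] at h2
  rw [← hb] at h2
  have hk' : (0 : ℤ) < k := by exact_mod_cast hk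
  nlinarith

theorem rho_disjoint (hN : N.Prime) (Q : Place (IsLocalRing.ResidueField A)
    (modularFunctionFieldFullC (IsLocalRing.ResidueField A) (N * aux ℓ))) :
    rho N hℓN A hA (Finsupp.single (Pinf N) 1) Q = 0 ∨
      rho N hℓN A hA (Finsupp.single (P0 N hN) 1) Q = 0 := by
  classical
  have := (heckeInputsAlong' N (aux ℓ)).snd.snd.fst
  have hℓM : ¬ ℓ ∣ N * aux ℓ := not_dvd_mul_aux Fact.out hℓN
  have hφ : (heckeBetaBar Kb N (aux ℓ)).toRingHom.IsIntegral :=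
    (heckeInputsAlong' N (aux ℓ)).snd.fst
  have key : ∀ v : Place Kb (FN N), v.ord (jF N) < 0 →
      rho N hℓN A hA (Finsupp.single v 1) Q ≠ 0 →
      ∃ W : Place Kb (FN (N * aux ℓ)), W.restrictAlong (heckeBetaBar Kb N (aux ℓ)) hφ = v ∧
        placeReductionModL (reductionInputsModL_aux N hℓN A hA) W = Q ∧
        W.ord (jF (N * aux ℓ)) < 0 := by
    intro v hvj hv
    have h1 : rho N hℓN A hA (Finsupp.single v 1) =
        ∑ W ∈ Place.fiberAlong (heckeBetaBar Kb N (aux ℓ)) hφ v,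
          Finsupp.single (placeReductionModL (reductionInputsModL_aux N hℓN A hA) W)
            ((1 : ℤ) * W.ramificationIndexAlong (heckeBetaBar Kb N (aux ℓ))) :=
      Pull.redDiv_single _ hφ _ v 1
    rw [h1, Finsupp.finsetSum_apply] at hv
    obtain ⟨W, hW, hne⟩ := Finset.exists_ne_zero_of_sum_ne_zero hv
    have hWv := Place.mem_fiberAlong.1 hW
    refine ⟨W, hWv, ?_, ?_⟩
    · by_contra hcon
      exact hne (Finsupp.single_eq_of_ne (Ne.symm hcon))
    · apply ord_jF_neg_of_ord_beta_neg N (aux ℓ)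
      rw [Place.ord_restrictAlong _ hφ, hWv]
      have he : 0 < W.ramificationIndexAlong (heckeBetaBar Kb N (aux ℓ)) := by
        let _ := algebraAlong (heckeBetaBar Kb N (aux ℓ))
        have := isIntegral_along _ hφ
        exact W.ramificationIndex_pos (F := FN N)
      have he' : (0 : ℤ) < W.ramificationIndexAlong (heckeBetaBar Kb N (aux ℓ)) := by
        exact_mod_cast he
      exact mul_neg_of_pos_of_neg he' hvj
  by_contra hcon
  rw [not_or] at hcon
  obtain ⟨W, hW, hWQ, hWj⟩ := key _ (by rw [ord_Pinf_jF]; omega) hcon.1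
  obtain ⟨W', hW', hWQ', hWj'⟩ := key _ (ord_P0_jF_neg N hN) hcon.2
  have hWW : W = W' := Red.injOn_cusps (N * aux ℓ) hℓM A hA
    (reductionInputsModL_aux N hℓN A hA) hWj hWj' (hWQ.trans hWQ'.symm)
  exact P0_ne_Pinf N hN (by rw [← hW, ← hW', hWW])

/-- the three kinds of places -/
theorem place_cases (hN : N.Prime) (v : Place Kb (FN N)) :
    v = Pinf N ∨ v = P0 N hN ∨
      (v ≠ Pinf N ∧ v ≠ P0 N hN ∧ 0 ≤ v.ord (jF N) ∧ v.ord (uF N hN) = 0) := by
  by_cases h1 : v = Pinf N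
  · exact Or.inl h1
  by_cases h2 : v = P0 N hN
  · exact Or.inr (Or.inl h2)
  have h3 : 0 ≤ v.ord (jF N) := by
    by_contra hcon
    rcases eq_cusp_of_ord_jF_neg N hN (not_le.mp hcon) with h | h
    · exact h1 h
    · exact h2 h
  exact Or.inr (Or.inr ⟨h1, h2, h3, ord_uF_of_finite N hN h3⟩)

theorem zeros_inv_uF (hN : N.Prime) (v : Place Kb (FN N)) :
    (Finsupp.single (Pinf N) ((N : ℤ) - 1) : Divisor Kb (FN N)) v = max (v.ord (uF N hN)⁻¹) 0 := by
  have hN1 : (1 : ℤ) ≤ N := by exact_mod_cast hN.one_lt.le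
  rw [Place.ord_inv]
  rcases place_cases N hN v with rfl | rfl | ⟨h1, h2, h3, h4⟩
  · rw [Finsupp.single_eq_same, ord_Pinf_uF, max_eq_left (by omega)]
    ring
  · rw [Finsupp.single_eq_of_ne (P0_ne_Pinf N hN), ord_P0_uF, max_eq_right (by omega)]
  · rw [Finsupp.single_eq_of_ne h1, h4]
    simp

theorem zeros_uF (hN : N.Prime) (v : Place Kb (FN N)) :
    (Finsupp.single (P0 N hN) ((N : ℤ) - 1) : Divisor Kb (FN N)) v = max (v.ord (uF N hN)) 0 := by
  have hN1 : (1 : ℤ) ≤ N := by exact_mod_cast hN.one_lt.le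
  rcases place_cases N hN v with rfl | rfl | ⟨h1, h2, h3, h4⟩
  · rw [Finsupp.single_eq_of_ne (P0_ne_Pinf N hN).symm, ord_Pinf_uF, max_eq_right (by omega)]
  · rw [Finsupp.single_eq_same, ord_P0_uF, max_eq_left (by omega)]
  · rw [Finsupp.single_eq_of_ne h2, h4]
    simp

theorem zeros_inv_jF (hN : N.Prime) (v : Place Kb (FN N)) :
    (Finsupp.single (Pinf N) 1 + Finsupp.single (P0 N hN) (N : ℤ) : Divisor Kb (FN N)) v =
      max (v.ord (jF N)⁻¹) 0 := by
  have hN1 : (1 : ℤ) ≤ N := by exact_mod_cast hN.one_lt.le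
  rw [Place.ord_inv, Finsupp.add_apply]
  rcases place_cases N hN v with rfl | rfl | ⟨h1, h2, h3, h4⟩
  · rw [Finsupp.single_eq_same, Finsupp.single_eq_of_ne (P0_ne_Pinf N hN).symm, ord_Pinf_jF]
    simp
  · rw [Finsupp.single_eq_same, Finsupp.single_eq_of_ne (P0_ne_Pinf N hN), ord_P0_jF,
      max_eq_left (by omega)]
    ring
  · rw [Finsupp.single_eq_of_ne h1, Finsupp.single_eq_of_ne h2, max_eq_right (by omega)]
    simp

theorem zeros_inv_jF_mul_uF (hN : N.Prime) (v : Place Kb (FN N)) :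
    (Finsupp.single (P0 N hN) 1 + Finsupp.single (Pinf N) (N : ℤ) : Divisor Kb (FN N)) v =
      max (v.ord ((jF N)⁻¹ * (uF N hN)⁻¹)) 0 := by
  have hN1 : (1 : ℤ) ≤ N := by exact_mod_cast hN.one_lt.le
  rw [Place.ord_mul _ (inv_ne_zero (Desc.jF_ne_zero N)) (inv_ne_zero (uF_ne_zero N hN)),
    Place.ord_inv, Place.ord_inv, Finsupp.add_apply]
  rcases place_cases N hN v with rfl | rfl | ⟨h1, h2, h3, h4⟩
  · rw [Finsupp.single_eq_same, Finsupp.single_eq_of_ne (P0_ne_Pinf N hN).symm, ord_Pinf_jF,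
      ord_Pinf_uF, max_eq_left (by omega)]
    ring
  · rw [Finsupp.single_eq_same, Finsupp.single_eq_of_ne (P0_ne_Pinf N hN), ord_P0_jF, ord_P0_uF,
      max_eq_left (by omega)]
    ring
  · rw [Finsupp.single_eq_of_ne h1, Finsupp.single_eq_of_ne h2, h4, max_eq_right (by omega)]
    simp

theorem single_le_zeros {x : Place Kb (FN N)} {g : FN N} (h : 0 < x.ord g) (v : Place Kb (FN N)) :
    (Finsupp.single x 1 : Divisor Kb (FN N)) v ≤ max (v.ord g) 0 := by
  by_cases hv : v = x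
  · subst hv
    rw [Finsupp.single_eq_same]
    exact le_max_of_le_left h
  · rw [Finsupp.single_eq_of_ne hv]
    exact le_max_right _ _

theorem ne_zero_of_ord_pos {x : Place Kb (FN N)} {g : FN N} (h : 0 < x.ord g) : g ≠ 0 := by
  rintro rfl
  rw [Place.ord_zero] at h
  exact lt_irrefl _ h

theorem rho_single_natCast (v : Place Kb (FN N)) (n : ℕ) :
    rho N hℓN A hA (Finsupp.single v (n : ℤ)) = n • rho N hℓN A hA (Finsupp.single v 1) := by
  rw [← map_nsmul, Finsupp.smul_single, nsmul_eq_mul, mul_one]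

theorem uInvS_ne_zero (R : Type*) [CommRing R] [Nontrivial R] : uInvS R N ≠ 0 := by
  intro h
  have := uS_mul_uInvS R N
  rw [h, mul_zero] at this
  exact zero_ne_one this

theorem uS_ne_zero (R : Type*) [CommRing R] [Nontrivial R] : uS R N ≠ 0 := by
  intro h
  have := uS_mul_uInvS R N
  rw [h, zero_mul] at this
  exact zero_ne_one this

theorem jInvS_ne_zero (R : Type*) [CommRing R] [Nontrivial R] : jInvS R ≠ 0 := by
  intro h
  have := jqModC_mul_jInvS R
  rw [h, mul_zero] at this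
  exact zero_ne_one this

include hA in
theorem deg_place_red (Q : Place (IsLocalRing.ResidueField A)
    (modularFunctionFieldFullC (IsLocalRing.ResidueField A) (N * aux ℓ))) (hℓN : ¬ ℓ ∣ N) :
    Q.deg = 1 := by
  have := charP_residueField A hA
  have := isAlgClosed_residueField A
  exact (Cusp.isSepParam_jb (N * aux ℓ) (IsLocalRing.ResidueField A) ℓ
    (not_dvd_mul_aux Fact.out hℓN)).deg_eq_one Q

theorem degree_rho_single (x y : Place Kb (FN N)) :
    Divisor.degree (rho N hℓN A hA (Finsupp.single x 1)) =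
      Divisor.degree (rho N hℓN A hA (Finsupp.single y 1)) := by
  rw [degree_rho, degree_rho, Divisor.degree_single, Divisor.degree_single, deg_place, deg_place]

theorem rho_eq_Pinf (hN : N.Prime) {x : Place Kb (FN N)} {j₀ u₀ : Kb} (hj₀ : j₀ ≠ 0)
    (hu₀ : u₀ ≠ 0) (hxj : 0 < x.ord (jF N - algebraMap Kb (FN N) j₀))
    (hxu : 0 < x.ord (uF N hN - algebraMap Kb (FN N) u₀))
    (hvj : A.valuation j₀⁻¹ < 1) (hvu : A.valuation u₀⁻¹ < 1) :
    rho N hℓN A hA (Finsupp.single x 1) = rho N hℓN A hA (Finsupp.single (Pinf N) 1) := by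
  have hu := ord_inv_sub hu₀ hxu
  have hj := ord_inv_sub hj₀ hxj
  have hN1 : ((N - 1 : ℕ) : ℤ) = (N : ℤ) - 1 := by
    rw [Nat.cast_sub hN.one_lt.le, Nat.cast_one]
  refine eq_of_le_of_le (fun Q => deg_place_red N A hA Q hℓN) (N - 1) N ?_ ?_
    (rho_disjoint N hℓN A hA hN) (degree_rho_single N hℓN A hA _ _)
  · rw [← rho_single_natCast, hN1]
    exact rho_le_of_small N hℓN A hA (uInvS A N)
      (by rw [coeffMap_uInvS, coe_inv_uF]) (by rw [coeffMap_uInvS]; exact uInvS_ne_zero N _) hvu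
      (ne_zero_of_ord_pos N hu) (zeros_inv_uF N hN) (single_le_zeros N hu)
  · rw [← rho_single_natCast, ← map_add]
    exact rho_le_of_small N hℓN A hA (jInvS A)
      (by rw [coeffMap_jInvS, coe_inv_jF]) (by rw [coeffMap_jInvS]; exact jInvS_ne_zero _) hvj
      (ne_zero_of_ord_pos N hj) (zeros_inv_jF N hN) (single_le_zeros N hj)

theorem rho_eq_P0 (hN : N.Prime) {x : Place Kb (FN N)} {j₀ u₀ : Kb} (hj₀ : j₀ ≠ 0)
    (hu₀ : u₀ ≠ 0) (hxj : 0 < x.ord (jF N - algebraMap Kb (FN N) j₀))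
    (hxu : 0 < x.ord (uF N hN - algebraMap Kb (FN N) u₀))
    (hvu : A.valuation u₀ < 1) (hvw : A.valuation (j₀ * u₀)⁻¹ < 1) :
    rho N hℓN A hA (Finsupp.single x 1) = rho N hℓN A hA (Finsupp.single (P0 N hN) 1) := by
  have hu := ord_inv_sub hu₀ hxu
  have hj := ord_inv_sub hj₀ hxj
  have hN1 : ((N - 1 : ℕ) : ℤ) = (N : ℤ) - 1 := by
    rw [Nat.cast_sub hN.one_lt.le, Nat.cast_one]
  have hne : (jF N)⁻¹ * (uF N hN)⁻¹ - algebraMap Kb (FN N) (j₀⁻¹ * u₀⁻¹) ≠ 0 := by
    intro h0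
    -- at `Pinf` the function has a zero, the constant does not
    have h1 : (jF N)⁻¹ * (uF N hN)⁻¹ = algebraMap Kb (FN N) (j₀⁻¹ * u₀⁻¹) := sub_eq_zero.mp h0
    have h2 := congrArg (Pinf N).ord h1
    rw [Place.ord_mul _ (inv_ne_zero (Desc.jF_ne_zero N)) (inv_ne_zero (uF_ne_zero N hN)),
      Place.ord_inv, Place.ord_inv, ord_Pinf_jF, ord_Pinf_uF, S24.Place.ord_algebraMap] at h2
    have : (0 : ℤ) < N := by exact_mod_cast hN.pos
    omega
  have hw := ord_mul_sub hne hj hu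
  have hinv : (j₀ * u₀)⁻¹ = j₀⁻¹ * u₀⁻¹ := by rw [mul_inv]
  rw [hinv] at hvw
  refine eq_of_le_of_le (fun Q => deg_place_red N A hA Q hℓN) (N - 1) N ?_ ?_
    (fun Q => (rho_disjoint N hℓN A hA hN Q).symm) (degree_rho_single N hℓN A hA _ _)
  · rw [← rho_single_natCast, hN1]
    exact rho_le_of_small N hℓN A hA (uS A N)
      (by rw [coeffMap_uS]; rfl) (by rw [coeffMap_uS]; exact uS_ne_zero N _) hvu
      (ne_zero_of_ord_pos N hxu) (zeros_uF N hN) (single_le_zeros N hxu)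
  · rw [← rho_single_natCast, ← map_add]
    refine rho_le_of_small N hℓN A hA (jInvS A * uInvS A N)
      (by rw [map_mul, coeffMap_jInvS, coeffMap_uInvS, ← coe_inv_jF N, ← coe_inv_uF N hN]; rfl) ?_ hvw
      hne (zeros_inv_jF_mul_uF N hN) (single_le_zeros N hw)
    rw [map_mul, coeffMap_jInvS, coeffMap_uInvS]
    exact mul_ne_zero (jInvS_ne_zero _) (uInvS_ne_zero N _)

theorem eq_of_rho_eq_Pinf (hN : N.Prime) {x x' : Place Kb (FN N)} {j₀ : Kb} (hj₀ : j₀ ≠ 0)
    (hvj : A.valuation j₀⁻¹ < 1) (hx : 0 < x.ord (jF N - algebraMap Kb (FN N) j₀))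
    (hx' : 0 < x'.ord (jF N - algebraMap Kb (FN N) j₀))
    (h : rho N hℓN A hA (Finsupp.single x 1) = rho N hℓN A hA (Finsupp.single (Pinf N) 1))
    (h' : rho N hℓN A hA (Finsupp.single x' 1) = rho N hℓN A hA (Finsupp.single (Pinf N) 1)) :
    x = x' := by
  by_contra hne
  have hj := ord_inv_sub hj₀ hx
  have hj' := ord_inv_sub hj₀ hx'
  have hE : ∀ v, (Finsupp.single x 1 + Finsupp.single x' 1 : Divisor Kb (FN N)) v ≤
      max (v.ord ((jF N)⁻¹ - algebraMap Kb (FN N) j₀⁻¹)) 0 := by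
    intro v
    rw [Finsupp.add_apply]
    by_cases hv : v = x
    · subst hv
      rw [Finsupp.single_eq_same, Finsupp.single_eq_of_ne hne, add_zero]
      exact le_max_of_le_left hj
    · rw [Finsupp.single_eq_of_ne hv, zero_add]
      exact single_le_zeros N hj' v
  have h1 := rho_le_of_small N hℓN A hA (jInvS A)
      (by rw [coeffMap_jInvS, coe_inv_jF]) (by rw [coeffMap_jInvS]; exact jInvS_ne_zero _) hvj
      (ne_zero_of_ord_pos N hj) (zeros_inv_jF N hN) hE
  rw [map_add, map_add, h, h', rho_single_natCast] at h1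
  set Dinf := rho N hℓN A hA (Finsupp.single (Pinf N) 1) with hDinf
  set D0 := rho N hℓN A hA (Finsupp.single (P0 N hN) 1) with hD0
  have h0 : (0 : Divisor _ _) ≤ Dinf := by
    have := rho_mono N hℓN A hA (D := 0) (E := Finsupp.single (Pinf N) 1) (by
      intro v
      by_cases hv : v = Pinf N
      · subst hv; simp
      · rw [Finsupp.single_eq_of_ne hv]; simp)
    rwa [map_zero] at this
  have h2 : Dinf = 0 := by
    ext Q
    have h3 := h1 Q
    rw [Finsupp.add_apply, Finsupp.add_apply, Finsupp.smul_apply] at h3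
    have h4 := h0 Q
    rw [Finsupp.zero_apply] at h4 ⊢
    rcases rho_disjoint N hℓN A hA hN Q with h5 | h5
    · exact h5
    · rw [← hD0] at h5
      rw [h5, smul_zero] at h3
      omega
  have h6 := degree_rho N hℓN A hA (Finsupp.single (Pinf N) 1)
  rw [← hDinf, h2, map_zero, Divisor.degree_single, deg_place] at h6
  have h7 := finrankAlong_pos N (aux ℓ)
  have : (0 : ℤ) < (finrankAlong Kb (heckeBetaBar Kb N (aux ℓ)) : ℤ) := by exact_mod_cast h7
  simp at h6
  omega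

theorem redJ_ptSub_of_rho_eq {x y : Place Kb (FN N)}
    (h : rho N hℓN A hA (Finsupp.single x 1) = rho N hℓN A hA (Finsupp.single y 1)) :
    redJ N ℓ A (ptSub N x y) = 0 := by
  refine redJ_mk_of_rho_eq_zero N hℓN A hA _ ?_
  show rho N hℓN A hA (Finsupp.single x 1 - Finsupp.single y 1) = 0
  rw [map_sub, h, sub_self]

include hℓN hA in
/-- **[RED-∞]** -/
theorem redJ_ptSub_Pinf (hN : N.Prime) {x : Place Kb (FN N)} {j₀ u₀ : Kb} (hj₀ : j₀ ≠ 0)
    (hu₀ : u₀ ≠ 0) (hxj : 0 < x.ord (jF N - algebraMap Kb (FN N) j₀))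
    (hxu : 0 < x.ord (uF N hN - algebraMap Kb (FN N) u₀))
    (hvj : A.valuation j₀⁻¹ < 1) (hvu : A.valuation u₀⁻¹ < 1) :
    redJ N ℓ A (ptSub N x (Pinf N)) = 0 :=
  redJ_ptSub_of_rho_eq N hℓN A hA (rho_eq_Pinf N hℓN A hA hN hj₀ hu₀ hxj hxu hvj hvu)

include hℓN hA in
/-- **[RED-0]** -/
theorem redJ_ptSub_P0 (hN : N.Prime) {x : Place Kb (FN N)} {j₀ u₀ : Kb} (hj₀ : j₀ ≠ 0)
    (hu₀ : u₀ ≠ 0) (hxj : 0 < x.ord (jF N - algebraMap Kb (FN N) j₀))
    (hxu : 0 < x.ord (uF N hN - algebraMap Kb (FN N) u₀))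
    (hvu : A.valuation u₀ < 1) (hvw : A.valuation (j₀ * u₀)⁻¹ < 1) :
    redJ N ℓ A (ptSub N x (P0 N hN)) = 0 :=
  redJ_ptSub_of_rho_eq N hℓN A hA (rho_eq_P0 N hℓN A hA hN hj₀ hu₀ hxj hxu hvu hvw)

include hℓN hA in
/-- **[RAT]** a point with rational `(j₀, u₀)` which is of type `∞` at some `A` is Galois-fixed. -/
theorem smul_place_eq (hN : N.Prime) {x : Place Kb (FN N)} {j₀ u₀ : Kb} (hj₀ : j₀ ≠ 0)
    (hu₀ : u₀ ≠ 0) (hxj : 0 < x.ord (jF N - algebraMap Kb (FN N) j₀))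
    (hxu : 0 < x.ord (uF N hN - algebraMap Kb (FN N) u₀))
    (hvj : A.valuation j₀⁻¹ < 1) (hvu : A.valuation u₀⁻¹ < 1)
    (σ : Kb ≃ₐ[ℚ] Kb) (hσj : σ j₀ = j₀) (hσu : σ u₀ = u₀) :
    arithmeticGalois (modularFunctionFieldFull N) σ • x = x :=
  eq_of_rho_eq_Pinf N hℓN A hA hN hj₀ hvj (ord_smul_sub σ (smul_jF N σ) hσj hxj) hxj
    (rho_eq_Pinf N hℓN A hA hN hj₀ hu₀ (ord_smul_sub σ (smul_jF N σ) hσj hxj)
      (ord_smul_sub σ (smul_uF N hN σ) hσu hxu) hvj hvu)
    (rho_eq_Pinf N hℓN A hA hN hj₀ hu₀ hxj hxu hvj hvu)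

end

end Fermat.Agent.MAZ.Red
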